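import Fermat.Agent.S37.Main
import Fermat.Agent.S37.Nodes
import Fermat.Agent.S37.HeckeInputs.Main
import Fermat.Agent.GAL.E.HeckeRed
import Fermat.Agent.GAL.E.GalRed
import Fermat.Agent.GAL.E.KumHecke

/-!
# S37, block R4, task S37-R4-Congr (helper33)

Kronecker congruence for the multiplicative Hecke operator `TT b = Norm_β (α b)` on functions:
`TT (c - b) ≡ (c - (φ⁻¹ b)^ℓ) (c^ℓ - φ b)` modulo the maximal ideal of `A`, on `q`-expansions.
-/

set_option autoImplicit false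

noncomputable section

namespace Fermat.Agent.S37

open AlgebraicCurve ModularCurve Fermat.Agent.S24 Fermat.Agent.S37.HeckeInputs

variable (A : ValuationSubring Kbar) (N : ℕ) [NeZero N] (ℓ : ℕ) [NeZero ℓ]

/-- the multiplicative Hecke operator `b ↦ Norm_β (α b)` on functions -/
def TT : FN N →* FN N := (normAlong (heckeBetaBar Kbar N ℓ)).comp
  (heckeAlphaBar Kbar N ℓ : FN N →* FN (N * ℓ))

namespace Congr

open Fermat.Agent.GAL.E

theorem isKum_alpha {n : ℕ} {u : FN N} (hu : IsKum N n u) :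
    IsKum (N * ℓ) n (heckeAlphaBar Kbar N ℓ u) := by
  intro w
  rw [Place.ord_restrictAlong (heckeAlphaBar Kbar N ℓ) (alpha_integral N ℓ) w u]
  exact Dvd.dvd.mul_left (hu _) _

theorem isKum_TT {n : ℕ} {u : FN N} (hu : IsKum N n u) : IsKum N n (TT N ℓ u) := by
  intro v
  letI := algebraAlong (heckeBetaBar Kbar N ℓ)
  haveI : IsScalarTower Kbar (FN N) (FN (N * ℓ)) := isScalarTower_along (heckeBetaBar Kbar N ℓ)
  haveI : Module.Finite (FN N) (FN (N * ℓ)) := beta_finite N ℓ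
  exact dvd_ord_norm (K := Kbar) (n : ℤ) (heckeAlphaBar Kbar N ℓ u) (isKum_alpha N ℓ hu) v

/-- `TT` as a `HeckeOp`, given `ConjNorm`. -/
def heckeOpTT (hC : ConjNorm N ℓ) : HeckeOp N ℓ where
  T := TT N ℓ
  qExpand_T u := by
    have h := hC (B.zetaK ℓ) (B.isPrimitiveRoot_zetaK ℓ) u
    rw [qExpand_congr (sq ℓ)] at h
    exact h
  isKum _ _ hu := isKum_TT N ℓ hu

theorem coe_gal_smul (σ : Kbar ≃ₐ[ℚ] Kbar) (b : FN N) :
    ((gal N σ • b : FN N) : LaurentSeries Kbar) =
      coeffMap (σ : Kbar →+* Kbar) (b : LaurentSeries Kbar) := rfl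

theorem coe_algebraMap_FN (c : Kbar) :
    ((algebraMap Kbar (FN N) c : FN N) : LaurentSeries Kbar) = HahnSeries.C c := by
  show algebraMap Kbar (LaurentSeries Kbar) c = _
  rw [algebraMap_laurentSeries_eq_single]
  rfl

theorem coeffMap_C {R S : Type*} [CommRing R] [CommRing S] (f : R →+* S) (c : R) :
    coeffMap f (HahnSeries.C c : LaurentSeries R) = HahnSeries.C (f c) :=
  coeffMap_single _ _ _

end Congr

open Fermat.Agent.GAL.E Congr in
/-- task S37-R4-Congr: Kronecker congruence for functions -/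
theorem tt_congr (hℓ : ℓ.Prime) (hA : A.LiesOverPrime ℓ) (hC : ConjNorm N ℓ)
    (φ : Kbar ≃ₐ[ℚ] Kbar) (hφ : A.IsFrobeniusAt φ ℓ) (b : FN N) (Y : LaurentSeries A)
    (hY : HasIntExp A N b Y) (c : Kbar) (hc : c ∈ A) :
    ∃ Z : LaurentSeries A, rho A Z = 0 ∧ HasIntExp A N
      (TT N ℓ (algebraMap Kbar (FN N) c - b) -
        (algebraMap Kbar (FN N) c - (gal N φ⁻¹ • b) ^ ℓ) *
          (algebraMap Kbar (FN N) c ^ ℓ - gal N φ • b)) Z := by
  haveI : Fact ℓ.Prime := ⟨hℓ⟩
  haveI : CharP (IsLocalRing.ResidueField A) ℓ := charP_residueField A ℓ hℓ hA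
  obtain ⟨hd, hf⟩ := hφ
  set g : A.decompositionSubgroup ℚ := ⟨φ, hd⟩ with hg
  set c' : A := ⟨c, hc⟩ with hc'
  have hY' : incl A Y = (b : LaurentSeries Kbar) := hY
  -- the series of `c - b`
  set X : LaurentSeries A := HahnSeries.C c' - Y with hX
  have hXi : incl A X = ((algebraMap Kbar (FN N) c - b : FN N) : LaurentSeries Kbar) := by
    rw [hX, map_sub, Congr.coeffMap_C, hY', AddSubgroupClass.coe_sub, coe_algebraMap_FN]
    rfl
  have hXm : incl A X ∈ modularFunctionFieldBar N := by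
    rw [hXi]; exact (algebraMap Kbar (FN N) c - b : FN N).2
  obtain ⟨t, ht1, ht2⟩ := (heckeOpTT N ℓ hC).exists_T_red A hA X hXm
  have hXe : (⟨incl A X, hXm⟩ : FN N) = algebraMap Kbar (FN N) c - b := Subtype.ext hXi
  rw [hXe] at ht1
  -- the Galois conjugates
  set Yp : LaurentSeries A := coeffMap (decompHom A g) Y with hYp
  set Ym : LaurentSeries A := coeffMap (decompHom A g⁻¹) Y with hYm
  have hYp1 : incl A Yp = ((gal N φ • b : FN N) : LaurentSeries Kbar) := by
    rw [hYp, incl_decompHom, hY', coe_gal_smul]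
  have hYm1 : incl A Ym = ((gal N φ⁻¹ • b : FN N) : LaurentSeries Kbar) := by
    rw [hYm, incl_decompHom, hY', coe_gal_smul]
    rfl
  have hYp2 : GAL.E.red A Yp = coeffMap (frobenius (IsLocalRing.ResidueField A) ℓ) (GAL.E.red A Y) := by
    ext k
    rw [hYp, coeff_red_decompHom, coeffMap_coeff, coeffMap_coeff, hf, frobenius_def]
  have hYm2 : coeffMap (frobenius (IsLocalRing.ResidueField A) ℓ) (GAL.E.red A Ym) = GAL.E.red A Y := by
    ext k
    rw [coeffMap_coeff, hYm, coeff_red_decompHom, frobenius_def, ← hf, smul_smul, mul_inv_cancel,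
      one_smul, coeffMap_coeff]
  have hYm3 : (GAL.E.red A Ym) ^ ℓ = qExpand _ ℓ (GAL.E.red A Y) := by
    rw [pow_char_eq_qExpand, hYm2]
  refine ⟨t - (HahnSeries.C c' - Ym ^ ℓ) * (HahnSeries.C c' ^ ℓ - Yp), ?_, ?_⟩
  · show GAL.E.red A _ = 0
    rw [map_sub, map_mul, map_sub, map_sub, map_pow, map_pow, ht2, hX, map_sub, map_sub, map_sub,
      hYm3, hYp2, Congr.coeffMap_C, qExpand_C, Congr.coeffMap_C, frobenius_def, map_pow, sub_self]
  · show incl A _ = _
    rw [map_sub, map_mul, map_sub, map_sub, map_pow, map_pow, ht1, hYm1, hYp1, Congr.coeffMap_C,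
      AddSubgroupClass.coe_sub, MulMemClass.coe_mul, AddSubgroupClass.coe_sub,
      AddSubgroupClass.coe_sub, SubmonoidClass.coe_pow, SubmonoidClass.coe_pow, coe_algebraMap_FN]
    rfl

end Fermat.Agent.S37

end
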