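import Fermat.Agent.S37.Main
import Fermat.Agent.S37.Nodes
import Fermat.Agent.S37.Val
import Fermat.Agent.S37.HeckeInputs.Main
import Fermat.Agent.S24.B.TExp

/-!
# S37, block R4, task S37-R4-Region (helper66)
For a place `W` of `X₀(N ℓ)`: `j(W|α) ∈ A` iff `j(W|β) ∈ A`.
-/

set_option autoImplicit false

noncomputable section

namespace Fermat.Agent.S37

open AlgebraicCurve ModularCurve Fermat.Agent.S24 Fermat.Agent.S37 Fermat.Agent.S37.HeckeInputs

variable (A : ValuationSubring Kbar) (N : ℕ) [NeZero N] (ℓ : ℕ) [NeZero ℓ]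

/-- `α : b(q) ↦ b(q)` -/
local notation "αα" => heckeAlphaBar Kbar N ℓ
/-- `β : b(q) ↦ b(q^ℓ)` -/
local notation "ββ" => heckeBetaBar Kbar N ℓ

theorem region_alpha_jF : αα (jF N) = jF (N * ℓ) := Subtype.ext rfl

omit [NeZero N] in
theorem region_beta_jF : ββ (jF N) = JF (N * ℓ) ℓ (dvd_mul_left ℓ N) :=
  Subtype.ext (B.Jser_eq_qExpand ℓ).symm

/-- a root of a monic polynomial with coefficients in `ℤ[x]`, `x ∈ V`, lies in `V`. -/
theorem region_mem_of_root {F : Type*} [Field F] (V : ValuationSubring F) {x y : F} (hx : x ∈ V)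
    (Φ : Polynomial (Polynomial ℤ)) (hΦ : Φ.Monic)
    (h : Polynomial.eval₂ (Polynomial.aeval (R := ℤ) x).toRingHom y Φ = 0) : y ∈ V := by
  set f : Polynomial ℤ →+* F := (Polynomial.aeval (R := ℤ) x).toRingHom with hf
  have hR : f.range ≤ V.toSubring := by
    rintro _ ⟨p, rfl⟩
    show Polynomial.aeval x p ∈ V
    rw [Polynomial.aeval_eq_sum_range]
    exact sum_mem fun i _ => zsmul_mem (pow_mem hx i) _
  refine mem_valuationSubring_of_isIntegral V f.range hR ?_
  refine ⟨Φ.map f.rangeRestrict, hΦ.map _, ?_⟩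
  rw [Polynomial.eval₂_map]
  exact h

theorem region_inFin_alpha (W : Pl (N * ℓ)) :
    InFin A N (W.restrictAlong αα (alpha_integral N ℓ)) ↔ jF (N * ℓ) ∈ compRing A W := by
  have h1 := ord_restrictAlong_nonneg_iff αα (alpha_integral N ℓ) W (jF N)
  have h2 := val_restrictAlong αα (alpha_integral N ℓ) W (jF N)
  rw [region_alpha_jF] at h1 h2
  rw [mem_compRing, ← h1, ← h2]
  rfl

theorem region_inFin_beta (W : Pl (N * ℓ)) :
    InFin A N (W.restrictAlong ββ (beta_integral N ℓ)) ↔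
      JF (N * ℓ) ℓ (dvd_mul_left ℓ N) ∈ compRing A W := by
  have h1 := ord_restrictAlong_nonneg_iff ββ (beta_integral N ℓ) W (jF N)
  have h2 := val_restrictAlong ββ (beta_integral N ℓ) W (jF N)
  rw [region_beta_jF] at h1 h2
  rw [mem_compRing, ← h1, ← h2]
  rfl

/-- task S37-R4-Region, file `RedHecke/Region.lean` -/
theorem inFin_alpha_iff_beta (hJ : JInt (N * ℓ) ℓ (dvd_mul_left ℓ N)) (W : Pl (N * ℓ)) :
    InFin A N (W.restrictAlong αα (alpha_integral N ℓ)) ↔
      InFin A N (W.restrictAlong ββ (beta_integral N ℓ)) := by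
  rw [region_inFin_alpha, region_inFin_beta]
  obtain ⟨⟨Φ, hΦ, h⟩, ⟨Ψ, hΨ, h'⟩⟩ := hJ
  exact ⟨fun hx => region_mem_of_root _ hx Φ hΦ h, fun hx => region_mem_of_root _ hx Ψ hΨ h'⟩

end Fermat.Agent.S37
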