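import Fermat.Agent.S37.RedHecke.PolyCore
import Fermat.Agent.S37.RedHecke.Congr
import Fermat.Agent.S37.RedHecke.Region

/-!
# S37, block R4, node Poly (owner helper193): the Hecke polynomial identity at a place
-/

set_option autoImplicit false

noncomputable section

namespace Fermat.Agent.S37

open AlgebraicCurve ModularCurve Fermat.Agent.S24 Fermat.Agent.S37 Fermat.Agent.S37.HeckeInputs

variable (A : ValuationSubring Kbar) (N : ℕ) [NeZero N] (ℓ : ℕ) [NeZero ℓ]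

/-- `α : b(q) ↦ b(q)` -/
local notation "αα" => heckeAlphaBar Kbar N ℓ
/-- `β : b(q) ↦ b(q^ℓ)` -/
local notation "ββ" => heckeBetaBar Kbar N ℓ

/-- task S37-R4-Poly (finite region), file `RedHecke/Poly.lean` -/
theorem hecke_poly_fin (hℓ : ℓ.Prime) (hA : A.LiesOverPrime ℓ) (hQF : QAFin A N) (hEF : EVFin A N)
    (hJ : JInt (N * ℓ) ℓ (dvd_mul_left ℓ N)) (hC : ConjNorm N ℓ)
    (φ : Kbar ≃ₐ[ℚ] Kbar) (hφ : A.IsFrobeniusAt φ ℓ) (P : Pl N) (hP : InFin A N P)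
    (b : FN N) (hb : b ∈ BFin A N) (c : Kbar) (hc : c ∈ A) :
    ∏ W ∈ Place.fiberAlong ββ (beta_integral N ℓ) P,
      (resA A c - resA A (val (W.restrictAlong αα (alpha_integral N ℓ)) b)) ^
        W.ramificationIndexAlong ββ =
    (resA A c - resA A (val (gal N φ • P) b)) * (resA A c - resA A (val (gal N φ⁻¹ • P) b)) ^ ℓ :=
  HeckePoly.core N ℓ hℓ hA (BFin A N) (InFin A N) (ri_BFin_le A N)
    (fun _ ha => algebraMap_mem_BFin ha) (fun _ hτ => ri_BFin_stable A N hτ)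
    (fun _ hτ P => ri_inFin_smul hτ P) hQF.1 hEF (fun W => inFin_alpha_iff_beta A N ℓ hJ W) φ hφ
    (fun b Y hY c hc => tt_congr A N ℓ hℓ hA hC φ hφ b Y hY c hc) P hP b hb c hc

/-- task S37-R4-Poly (region at infinity), file `RedHecke/Poly.lean` -/
theorem hecke_poly_inf (hℓ : ℓ.Prime) (hA : A.LiesOverPrime ℓ) (hQI : QAInf A N) (hEI : EVInf A N)
    (hJ : JInt (N * ℓ) ℓ (dvd_mul_left ℓ N)) (hC : ConjNorm N ℓ)
    (φ : Kbar ≃ₐ[ℚ] Kbar) (hφ : A.IsFrobeniusAt φ ℓ) (P : Pl N) (hP : ¬ InFin A N P)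
    (b : FN N) (hb : b ∈ BInf A N) (c : Kbar) (hc : c ∈ A) :
    ∏ W ∈ Place.fiberAlong ββ (beta_integral N ℓ) P,
      (resA A c - resA A (val (W.restrictAlong αα (alpha_integral N ℓ)) b)) ^
        W.ramificationIndexAlong ββ =
    (resA A c - resA A (val (gal N φ • P) b)) * (resA A c - resA A (val (gal N φ⁻¹ • P) b)) ^ ℓ :=
  HeckePoly.core N ℓ hℓ hA (BInf A N) (fun P' => ¬ InFin A N P') (ri_BInf_le A N)
    (fun _ ha => algebraMap_mem_BInf ha) (fun _ hτ => ri_BInf_stable A N hτ)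
    (fun _ hτ P => not_congr (ri_inFin_smul hτ P)) hQI.1 hEI
    (fun W => not_congr (inFin_alpha_iff_beta A N ℓ hJ W)) φ hφ
    (fun b Y hY c hc => tt_congr A N ℓ hℓ hA hC φ hφ b Y hY c hc) P hP b hb c hc

end Fermat.Agent.S37

end
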