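import Fermat.Agent.S37.RedHecke.Region
import Fermat.Agent.S37.RedHecke.Poly
import Fermat.Agent.S37.Sep
import Fermat.Agent.S37.RedInertia
import Fermat.Agent.S37.C0.Basic

/-!
# S37, block R4, assembly (task S37-R4-Asm, helper243)

`RedHecke` (the Eichler-Shimura congruence on places) from the Hecke polynomial identity
`hecke_poly_fin` / `hecke_poly_inf` and the separation lemma `sep_lemma`.
-/

set_option autoImplicit false

noncomputable section

namespace Fermat.Agent.S37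

open AlgebraicCurve ModularCurve Fermat.Agent.S24 Fermat.Agent.S37.HeckeInputs

/-- Abstract core: an identity of "characteristic polynomials" of finite families of points
(`= ` homomorphisms `B → k` compatible with the constants) is an identity of `0`-cycles. -/
theorem redHecke_core {B k A₀ X ι : Type*} [CommRing B] [Field k] [Infinite k]
    (κ : A₀ → B) (ρ : A₀ → k) (hρ : Function.Surjective ρ)
    (s : Finset ι) (ev : ι → (B →+* k)) (mult : ι → ℕ) (e₁ e₂ : B →+* k) (ℓ : ℕ)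
    (hev : ∀ w ∈ s, ∀ a, ev w (κ a) = ρ a) (h₁ : ∀ a, e₁ (κ a) = ρ a) (h₂ : ∀ a, e₂ (κ a) = ρ a)
    (h : ∀ (b : B) (c : k), ∏ w ∈ s, (c - ev w b) ^ mult w = (c - e₁ b) * (c - e₂ b) ^ ℓ)
    (J : (B →+* k) → X) :
    ∑ w ∈ s, Finsupp.single (J (ev w)) (mult w : ℤ) =
      Finsupp.single (J e₁) 1 + Finsupp.single (J e₂) (ℓ : ℤ) := by
  classical
  let S : Set (B →+* k) := {e | ∀ a, e (κ a) = ρ a}
  have hsurj : ∀ e ∈ S, Function.Surjective e := by
    intro e he x
    obtain ⟨a, rfl⟩ := hρ x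
    exact ⟨κ a, he a⟩
  have hker : ∀ e ∈ S, ∀ e' ∈ S, RingHom.ker e = RingHom.ker e' → e = e' := by
    intro e he e' he' hk
    ext b
    obtain ⟨a, ha⟩ := hρ (e b)
    have h1 : b - κ a ∈ RingHom.ker e := by
      rw [RingHom.mem_ker, map_sub, he a, ha, sub_self]
    rw [hk, RingHom.mem_ker, map_sub, he' a, ha, sub_eq_zero] at h1
    exact h1.symm
  let m : (B →+* k) →₀ ℕ := ∑ w ∈ s, Finsupp.single (ev w) (mult w)
  let m' : (B →+* k) →₀ ℕ := Finsupp.single e₁ 1 + Finsupp.single e₂ ℓ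
  have hm : ∀ e, m e ≠ 0 → e ∈ S := by
    intro e he
    by_contra hS
    apply he
    simp only [m, Finsupp.finsetSum_apply]
    refine Finset.sum_eq_zero fun w hw => ?_
    rw [Finsupp.single_apply, if_neg]
    rintro rfl
    exact hS (hev w hw)
  have hm' : ∀ e, m' e ≠ 0 → e ∈ S := by
    intro e he
    by_contra hS
    apply he
    simp only [m', Finsupp.add_apply]
    have hne₁ : ¬ e₁ = e := fun h => hS (h ▸ h₁)
    have hne₂ : ¬ e₂ = e := fun h => hS (h ▸ h₂)
    rw [Finsupp.single_apply, Finsupp.single_apply, if_neg hne₁, if_neg hne₂, add_zero]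
  have hz : ∀ (b : B) (c : k) (e : B →+* k), (c - e b) ^ 0 = 1 := fun _ _ _ => pow_zero _
  have hadd : ∀ (b : B) (c : k) (e : B →+* k) (n₁ n₂ : ℕ),
      (c - e b) ^ (n₁ + n₂) = (c - e b) ^ n₁ * (c - e b) ^ n₂ := fun _ _ _ _ _ => pow_add _ _ _
  have hprod : ∀ (b : B) (c : k),
      m.prod (fun e n => (c - e b) ^ n) = ∏ w ∈ s, (c - ev w b) ^ mult w := by
    intro b c
    simp only [m]
    rw [← Finsupp.prod_finsetSum_index (hz b c) (hadd b c)]
    exact Finset.prod_congr rfl fun w _ =>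
      Finsupp.prod_single_index (h := fun (e : B →+* k) (n : ℕ) => (c - e b) ^ n) (pow_zero _)
  have hprod' : ∀ (b : B) (c : k),
      m'.prod (fun e n => (c - e b) ^ n) = (c - e₁ b) * (c - e₂ b) ^ ℓ := by
    intro b c
    simp only [m']
    rw [Finsupp.prod_add_index' (hz b c) (hadd b c),
      Finsupp.prod_single_index (h := fun (e : B →+* k) (n : ℕ) => (c - e b) ^ n) (pow_zero _),
      Finsupp.prod_single_index (h := fun (e : B →+* k) (n : ℕ) => (c - e b) ^ n) (pow_zero _),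
      pow_one]
  have hmm : m = m' :=
    sep_lemma m m' S hm hm' hsurj hker fun b c => by rw [hprod, hprod', h]
  let Φ : ((B →+* k) →₀ ℕ) →+ (X →₀ ℤ) :=
    Finsupp.liftAddHom fun e => (Finsupp.singleAddHom (J e)).comp (Nat.castAddMonoidHom ℤ)
  have hΦ : ∀ (e : B →+* k) (n : ℕ), Φ (Finsupp.single e n) = Finsupp.single (J e) (n : ℤ) := by
    intro e n
    simp [Φ]
  have h3 := congrArg Φ hmm
  simp only [m, m', map_sum, map_add, hΦ] at h3
  simpa using h3

variable (A : ValuationSubring Kbar) (N : ℕ) [NeZero N] (ℓ : ℕ) [NeZero ℓ]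

/-- `α : b(q) ↦ b(q)` -/
local notation "αα" => heckeAlphaBar Kbar N ℓ
/-- `β : b(q) ↦ b(q^ℓ)` -/
local notation "ββ" => heckeBetaBar Kbar N ℓ

theorem infinite_kA : Infinite (kA A) := by
  have := isAlgClosed_kA (A := A)
  infer_instance

theorem redHecke_fin (hℓ : ℓ.Prime) (hA : A.LiesOverPrime ℓ) (hQF : QAFin A N) (hEF : EVFin A N)
    (hJ : JInt (N * ℓ) ℓ (dvd_mul_left ℓ N)) (hC : ConjNorm N ℓ)
    (φ : Kbar ≃ₐ[ℚ] Kbar) (hφ : A.IsFrobeniusAt φ ℓ) (P : Pl N) (hP : InFin A N P) :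
    ∑ W ∈ Place.fiberAlong ββ (beta_integral N ℓ) P,
      Finsupp.single (red A N (W.restrictAlong αα (alpha_integral N ℓ)))
        ((W.ramificationIndexAlong ββ : ℕ) : ℤ) =
    Finsupp.single (red A N (gal N φ • P)) 1 +
      Finsupp.single (red A N (gal N φ⁻¹ • P)) (ℓ : ℤ) := by
  classical
  have := infinite_kA A
  have hd := hφ.mem_decompositionSubgroup
  have hP₁ : InFin A N (gal N φ • P) := (ri_inFin_smul hd P).mpr hP
  have hP₂ : InFin A N (gal N φ⁻¹ • P) := (ri_inFin_smul (inv_mem hd) P).mpr hP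
  have hW : ∀ W ∈ Place.fiberAlong ββ (beta_integral N ℓ) P,
      InFin A N (W.restrictAlong αα (alpha_integral N ℓ)) := by
    intro W hW
    rw [inFin_alpha_iff_beta A N ℓ hJ W, Place.mem_fiberAlong.1 hW]
    exact hP
  let ev : Pl (N * ℓ) → (BFin A N →+* kA A) := fun W =>
    if h : InFin A N (W.restrictAlong αα (alpha_integral N ℓ)) then evFinHom h else evFinHom hP₁
  have hev : ∀ W (h : W ∈ Place.fiberAlong ββ (beta_integral N ℓ) P),
      ev W = evFinHom (hW W h) := fun W h => dif_pos (hW W h)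
  have hconst : ∀ (Q : Pl N) (hQ : InFin A N Q) (a : A),
      evFinHom hQ ⟨algebraMap Kbar (FN N) a, algebraMap_mem_BFin a.2⟩ = IsLocalRing.residue A a := by
    intro Q hQ a
    rw [evFinHom_apply, val_algebraMap, resA_coe]
  have key := redHecke_core
    (κ := fun a : A => (⟨algebraMap Kbar (FN N) a, algebraMap_mem_BFin a.2⟩ : BFin A N))
    (ρ := IsLocalRing.residue A) IsLocalRing.residue_surjective
    (Place.fiberAlong ββ (beta_integral N ℓ) P) ev (fun W => W.ramificationIndexAlong ββ)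
    (evFinHom hP₁) (evFinHom hP₂) ℓ
    (fun W h a => by rw [hev W h]; exact hconst _ _ a) (hconst _ hP₁) (hconst _ hP₂)
    (by
      intro b c
      obtain ⟨c', hc', rfl⟩ := exists_mem_resA_eq A c
      refine Eq.trans (Finset.prod_congr rfl fun W h => ?_)
        (hecke_poly_fin A N ℓ hℓ hA hQF hEF hJ hC φ hφ P hP b.1 b.2 c' hc')
      rw [hev W h]
      rfl)
    (J := fun e => (Sum.inl fun b => e b : X A N))
  rw [red_eq_inl hP₁, red_eq_inl hP₂, ← key]
  refine Finset.sum_congr rfl fun W h => ?_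
  rw [red_eq_inl (hW W h), hev W h]

theorem redHecke_inf (hℓ : ℓ.Prime) (hA : A.LiesOverPrime ℓ) (hQI : QAInf A N) (hEI : EVInf A N)
    (hJ : JInt (N * ℓ) ℓ (dvd_mul_left ℓ N)) (hC : ConjNorm N ℓ)
    (φ : Kbar ≃ₐ[ℚ] Kbar) (hφ : A.IsFrobeniusAt φ ℓ) (P : Pl N) (hP : ¬ InFin A N P) :
    ∑ W ∈ Place.fiberAlong ββ (beta_integral N ℓ) P,
      Finsupp.single (red A N (W.restrictAlong αα (alpha_integral N ℓ)))
        ((W.ramificationIndexAlong ββ : ℕ) : ℤ) =
    Finsupp.single (red A N (gal N φ • P)) 1 +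
      Finsupp.single (red A N (gal N φ⁻¹ • P)) (ℓ : ℤ) := by
  classical
  have := infinite_kA A
  have hd := hφ.mem_decompositionSubgroup
  have hP₁ : ¬ InFin A N (gal N φ • P) := fun h => hP ((ri_inFin_smul hd P).mp h)
  have hP₂ : ¬ InFin A N (gal N φ⁻¹ • P) := fun h => hP ((ri_inFin_smul (inv_mem hd) P).mp h)
  have hW : ∀ W ∈ Place.fiberAlong ββ (beta_integral N ℓ) P,
      ¬ InFin A N (W.restrictAlong αα (alpha_integral N ℓ)) := by
    intro W hW
    rw [inFin_alpha_iff_beta A N ℓ hJ W, Place.mem_fiberAlong.1 hW]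
    exact hP
  let ev : Pl (N * ℓ) → (BInf A N →+* kA A) := fun W =>
    if h : ¬ InFin A N (W.restrictAlong αα (alpha_integral N ℓ)) then evInfHom h else evInfHom hP₁
  have hev : ∀ W (h : W ∈ Place.fiberAlong ββ (beta_integral N ℓ) P),
      ev W = evInfHom (hW W h) := fun W h => dif_pos (hW W h)
  have hconst : ∀ (Q : Pl N) (hQ : ¬ InFin A N Q) (a : A),
      evInfHom hQ ⟨algebraMap Kbar (FN N) a, algebraMap_mem_BInf a.2⟩ = IsLocalRing.residue A a := by
    intro Q hQ a
    rw [evInfHom_apply, val_algebraMap, resA_coe]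
  have key := redHecke_core
    (κ := fun a : A => (⟨algebraMap Kbar (FN N) a, algebraMap_mem_BInf a.2⟩ : BInf A N))
    (ρ := IsLocalRing.residue A) IsLocalRing.residue_surjective
    (Place.fiberAlong ββ (beta_integral N ℓ) P) ev (fun W => W.ramificationIndexAlong ββ)
    (evInfHom hP₁) (evInfHom hP₂) ℓ
    (fun W h a => by rw [hev W h]; exact hconst _ _ a) (hconst _ hP₁) (hconst _ hP₂)
    (by
      intro b c
      obtain ⟨c', hc', rfl⟩ := exists_mem_resA_eq A c
      refine Eq.trans (Finset.prod_congr rfl fun W h => ?_)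
        (hecke_poly_inf A N ℓ hℓ hA hQI hEI hJ hC φ hφ P hP b.1 b.2 c' hc')
      rw [hev W h]
      rfl)
    (J := fun e => (Sum.inr fun b => e b : X A N))
  rw [red_eq_inr hP₁, red_eq_inr hP₂, ← key]
  refine Finset.sum_congr rfl fun W h => ?_
  rw [red_eq_inr (hW W h), hev W h]

/-- task S37-R4-Asm: **Block R4**, the Eichler-Shimura congruence on places. -/
theorem redHecke (hℓ : ℓ.Prime) (hA : A.LiesOverPrime ℓ)
    (hQF : QAFin A N) (hQI : QAInf A N) (hEF : EVFin A N) (hEI : EVInf A N)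
    (hJ : JInt (N * ℓ) ℓ (dvd_mul_left ℓ N)) (hC : ConjNorm N ℓ) : RedHecke A N ℓ := by
  intro hα hβ _ φ hφ P
  have h1 : heckeDivBar hα hβ (Finsupp.single P 1) =
      ∑ w ∈ Place.fiberAlong ββ (beta_integral N ℓ) P,
        Finsupp.single (w.restrictAlong αα (alpha_integral N ℓ))
          ((1 : ℤ) * w.ramificationIndexAlong ββ) := heckeDiv_single N ℓ P 1
  rw [h1, map_sum]
  simp only [redDiv_single, one_mul]
  by_cases hP : InFin A N P
  · exact redHecke_fin A N ℓ hℓ hA hQF hEF hJ hC φ hφ P hP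
  · exact redHecke_inf A N ℓ hℓ hA hQI hEI hJ hC φ hφ P hP

end Fermat.Agent.S37

end
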