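import Fermat.Agent.S37.Nodes
import Fermat.Agent.S37.Val
import Fermat.Agent.S37.ValNorm
import Fermat.Agent.S37.RedInertia
import Fermat.Agent.S37.HeckeInputs.Main
import Fermat.Agent.GAL.E.Frob
import Fermat.Agent.GAL.E.GalRed

/-!
# S37, block R4, node Poly (owner helper193): the common core of the Hecke polynomial identity
-/

set_option autoImplicit false
set_option linter.style.haveILetI false
set_option linter.unusedSectionVars false

noncomputable section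

namespace Fermat.Agent.S37

open AlgebraicCurve ModularCurve Fermat.Agent.S24 Fermat.Agent.S37.HeckeInputs

namespace HeckePoly

variable (A : ValuationSubring Kbar) (N : ℕ) [NeZero N] (ℓ : ℕ) [NeZero ℓ]

/-- `α : b(q) ↦ b(q)` -/
local notation "αα" => heckeAlphaBar Kbar N ℓ
/-- `β : b(q) ↦ b(q^ℓ)` -/
local notation "ββ" => heckeBetaBar Kbar N ℓ

/-- the value of a norm along `β` -/
theorem valNorm_beta (P' : Pl N) (z : FN (N * ℓ))
    (hz : ∀ W ∈ Place.fiberAlong ββ (beta_integral N ℓ) P', 0 ≤ W.ord z) :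
    0 ≤ P'.ord (normAlong ββ z) ∧
      val P' (normAlong ββ z) =
        ∏ W ∈ Place.fiberAlong ββ (beta_integral N ℓ) P', val W z ^ W.ramificationIndexAlong ββ := by
  letI := algebraAlong ββ
  haveI := isScalarTower_along ββ
  haveI := isIntegral_along ββ (beta_integral N ℓ)
  haveI : Module.Finite (FN N) (FN (N * ℓ)) := beta_finite N ℓ
  exact valNorm Kbar (FN N) (FN (N * ℓ)) P' z hz

variable {A}

/-- a Frobenius lift acts on residues as the `ℓ`-th power -/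
theorem resA_frob {φ : Kbar ≃ₐ[ℚ] Kbar} (hφ : A.IsFrobeniusAt φ ℓ) {a : Kbar} (ha : a ∈ A) :
    φ a ∈ A ∧ resA A (φ a) = resA A a ^ ℓ := by
  obtain ⟨hd, hf⟩ := hφ
  have h1 : φ a ∈ A := (GAL.E.decompHom A ⟨φ, hd⟩ ⟨a, ha⟩).2
  refine ⟨h1, ?_⟩
  rw [resA_of_mem A h1, resA_of_mem A ha, ← hf]
  rfl

/-- **The common core**: `B` is `BFin` or `BInf`, `reg` the corresponding region. -/
theorem core (hℓ : ℓ.Prime) (hA : A.LiesOverPrime ℓ) (B : Subring (FN N)) (reg : Pl N → Prop)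
    (hB : ∀ P, reg P → ∀ z ∈ B, 0 ≤ P.ord z ∧ val P z ∈ A)
    (hconst : ∀ a ∈ A, algebraMap Kbar (FN N) a ∈ B)
    (hstab : ∀ τ ∈ A.decompositionSubgroup ℚ, ∀ z ∈ B, gal N τ • z ∈ B)
    (hregσ : ∀ τ ∈ A.decompositionSubgroup ℚ, ∀ P, reg (gal N τ • P) ↔ reg P)
    (hQ : ∀ b ∈ B, ∃ y : LaurentSeries A, HasIntExp A N b y)
    (hE : ∀ (c : FN N) (y : LaurentSeries A), HasIntExp A N c y → rho A y = 0 →
      (∀ P' : Pl N, reg P' → 0 ≤ P'.ord c) → ∀ P : Pl N, reg P → val P c ∈ A.nonunits)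
    (hRegion : ∀ W : Pl (N * ℓ), reg (W.restrictAlong αα (alpha_integral N ℓ)) ↔
      reg (W.restrictAlong ββ (beta_integral N ℓ)))
    (φ : Kbar ≃ₐ[ℚ] Kbar) (hφ : A.IsFrobeniusAt φ ℓ)
    (hT : ∀ (b : FN N) (Y : LaurentSeries A), HasIntExp A N b Y → ∀ c ∈ A,
      ∃ Z : LaurentSeries A, rho A Z = 0 ∧ HasIntExp A N
        (normAlong ββ (αα (algebraMap Kbar (FN N) c - b)) -
          (algebraMap Kbar (FN N) c - (gal N φ⁻¹ • b) ^ ℓ) *
            (algebraMap Kbar (FN N) c ^ ℓ - gal N φ • b)) Z)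
    (P : Pl N) (hP : reg P) (b : FN N) (hb : b ∈ B) (c : Kbar) (hc : c ∈ A) :
    ∏ W ∈ Place.fiberAlong ββ (beta_integral N ℓ) P,
      (resA A c - resA A (val (W.restrictAlong αα (alpha_integral N ℓ)) b)) ^
        W.ramificationIndexAlong ββ =
    (resA A c - resA A (val (gal N φ • P) b)) * (resA A c - resA A (val (gal N φ⁻¹ • P) b)) ^ ℓ := by
  haveI : Fact ℓ.Prime := ⟨hℓ⟩
  haveI : CharP (kA A) ℓ := GAL.E.charP_residueField A ℓ hℓ hA
  have hd : φ ∈ A.decompositionSubgroup ℚ := hφ.mem_decompositionSubgroup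
  have hdi : φ⁻¹ ∈ A.decompositionSubgroup ℚ := inv_mem hd
  set Cc : FN N := algebraMap Kbar (FN N) c with hCc
  have hCcB : Cc ∈ B := hconst c hc
  set x : FN N := Cc - b with hx
  have hxB : x ∈ B := sub_mem hCcB hb
  -- regularity and values of `α x` on the fibres of `β`
  have hfib : ∀ P' : Pl N, reg P' → ∀ W ∈ Place.fiberAlong ββ (beta_integral N ℓ) P',
      0 ≤ W.ord (αα x) ∧ val W (αα x) ∈ A ∧
        resA A (val W (αα x)) =
          resA A c - resA A (val (W.restrictAlong αα (alpha_integral N ℓ)) b) := by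
    intro P' hP' W hW
    have hW' : W.restrictAlong ββ (beta_integral N ℓ) = P' := Place.mem_fiberAlong.1 hW
    have hWα : reg (W.restrictAlong αα (alpha_integral N ℓ)) := by
      rw [hRegion, hW']; exact hP'
    obtain ⟨h1, h2⟩ := hB _ hWα x hxB
    obtain ⟨h3, h4⟩ := hB _ hWα b hb
    obtain ⟨h5, -⟩ := hB _ hWα Cc hCcB
    have e_ord : 0 ≤ (W.restrictAlong αα (alpha_integral N ℓ)).ord x ↔ 0 ≤ W.ord (αα x) :=
      ord_restrictAlong_nonneg_iff αα (alpha_integral N ℓ) W x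
    have e_val : val (W.restrictAlong αα (alpha_integral N ℓ)) x = val W (αα x) :=
      val_restrictAlong αα (alpha_integral N ℓ) W x
    rw [e_ord] at h1
    rw [e_val] at h2
    refine ⟨h1, h2, ?_⟩
    rw [← e_val, hx, val_sub h5 h3, hCc, val_algebraMap, resA_sub hc h4]
  -- the norm
  set T : FN N := normAlong ββ (αα x) with hTdef
  have hnorm : ∀ P' : Pl N, reg P' → 0 ≤ P'.ord T := fun P' hP' =>
    (valNorm_beta N ℓ P' (αα x) fun W hW => (hfib P' hP' W hW).1).1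
  have hvalT := (valNorm_beta N ℓ P (αα x) fun W hW => (hfib P hP W hW).1).2
  have hTA : val P T ∈ A := by
    rw [hTdef, hvalT]
    exact prod_mem fun W hW => pow_mem (hfib P hP W hW).2.1 _
  have hresT : resA A (val P T) = ∏ W ∈ Place.fiberAlong ββ (beta_integral N ℓ) P,
      (resA A c - resA A (val (W.restrictAlong αα (alpha_integral N ℓ)) b)) ^
        W.ramificationIndexAlong ββ := by
    rw [hTdef, hvalT, resA_prod _ _ fun W hW => pow_mem (hfib P hP W hW).2.1 _]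
    refine Finset.prod_congr rfl fun W hW => ?_
    rw [resA_pow (hfib P hP W hW).2.1, (hfib P hP W hW).2.2]
  rw [← hresT]
  -- the comparison function
  set bp : FN N := gal N φ • b with hbp
  set bm : FN N := gal N φ⁻¹ • b with hbm
  have hbpB : bp ∈ B := hstab φ hd b hb
  have hbmB : bm ∈ B := hstab φ⁻¹ hdi b hb
  set w : FN N := (Cc - bm ^ ℓ) * (Cc ^ ℓ - bp) with hw
  have hw1B : Cc - bm ^ ℓ ∈ B := sub_mem hCcB (pow_mem hbmB ℓ)
  have hw2B : Cc ^ ℓ - bp ∈ B := sub_mem (pow_mem hCcB ℓ) hbpB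
  have hwB : w ∈ B := mul_mem hw1B hw2B
  obtain ⟨Y, hY⟩ := hQ b hb
  obtain ⟨Z, hZ0, hZ⟩ := hT b Y hY c hc
  have hΔreg : ∀ P' : Pl N, reg P' → 0 ≤ P'.ord (T - w) := fun P' hP' =>
    ord_sub_nonneg (hnorm P' hP') (hB P' hP' w hwB).1
  have hΔ := hE (T - w) Z hZ hZ0 hΔreg P hP
  rw [val_sub (hnorm P hP) (hB P hP w hwB).1] at hΔ
  rw [(resA_eq_iff hTA (hB P hP w hwB).2).2 hΔ]
  -- the value of `w`
  have hPp : reg (gal N φ • P) := (hregσ φ hd P).2 hP
  have hPm : reg (gal N φ⁻¹ • P) := (hregσ φ⁻¹ hdi P).2 hP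
  set ap : Kbar := val (gal N φ • P) b with hap
  set am : Kbar := val (gal N φ⁻¹ • P) b with ham
  have hapA : ap ∈ A := (hB _ hPp b hb).2
  have hamA : am ∈ A := (hB _ hPm b hb).2
  have e1 : val P bp = φ am := by
    have h := ri_val_gal_smul N φ (gal N φ⁻¹ • P) b
    rwa [ri_gal_inv, smul_inv_smul] at h
  have e2 : φ (val P bm) = ap := by
    have h := ri_val_gal_smul N φ⁻¹ (gal N φ • P) b
    rw [ri_gal_inv, inv_smul_smul] at h
    rw [hbm, ri_gal_inv, h]
    exact AlgEquiv.apply_symm_apply φ _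
  have hbmA : val P bm ∈ A := (hB P hP bm hbmB).2
  have r1 : resA A (val P bp) = resA A am ^ ℓ := by
    rw [e1]; exact (resA_frob ℓ hφ hamA).2
  have r2 : resA A (val P bm) ^ ℓ = resA A ap := by
    rw [← (resA_frob ℓ hφ hbmA).2, e2]
  have o1 := (hB P hP Cc hCcB).1
  have o2 := (hB P hP bm hbmB).1
  have o3 := (hB P hP bp hbpB).1
  have hvC : val P Cc = c := by rw [hCc, val_algebraMap]
  rw [hw, val_mul (hB P hP _ hw1B).1 (hB P hP _ hw2B).1, val_sub o1 (ord_pow_nonneg o2 ℓ),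
    val_sub (ord_pow_nonneg o1 ℓ) o3, val_pow o2, val_pow o1, hvC,
    resA_mul (A.sub_mem hc (pow_mem hbmA ℓ)) (A.sub_mem (pow_mem hc ℓ) (hB P hP bp hbpB).2),
    resA_sub hc (pow_mem hbmA ℓ), resA_sub (pow_mem hc ℓ) (hB P hP bp hbpB).2, resA_pow hbmA,
    resA_pow hc, r1, r2, sub_pow_char]

end HeckePoly

end Fermat.Agent.S37

end
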